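/-
S55 / 35-INVP-LIMIT (helper53), part 1: **the ideal part of the total idelic invariant on the
limit module** `I^S = colim I^S(Ω)` over an open subgroup `V` of `G_ℚ`.

`𝒱 := restrictLevels (globalLevels S) V hV`; the finite levels are helper79's
`(Gal(Ω/K), Res I^S(Ω))`, `Gal(Ω/K) = HV S V i = V.map (resL Ω)`.  helper54's system
`idealSys Ω S θ hθ` (sum over `ℓ ∉ S` of the unramified invariants) is compatible with change of
level (`IdealInfl.idealSys_infl`), and helper54's `inflIS` IS the transition map of the family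
(`iIncl_inflIS`); hence the finite-level invariants glue to `InvI` on `𝒱.H2 (Res_V I^S)`.
-/
import Fermat.Agent.S55.CS79.FormationCS
import Fermat.Agent.S55.LimDesc99.Restrict
import Fermat.Agent.S55.IdeleCoh54.IdealInfl
import Fermat.Agent.S55.CycloRecip37.SysH2
import Fermat.Agent.S55.CLDescent35.Level

set_option autoImplicit false
set_option linter.unusedSectionVars false

open CategoryTheory groupCohomology

namespace Fermat.Agent.S55.InvLim53.Ideal

open Fermat.Agent.S55.Profin15 Fermat.Agent.S55.Idele73.Basic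
open Fermat.Agent.S55.ESDiv20 hiding GQ Qb
open Fermat.Agent.S55.ESRep20
open Fermat.Agent.S55.CS79.InvDescent Fermat.Agent.S55.CS79.Limit
open Fermat.Agent.S55.CS79.DivLimit Fermat.Agent.S55.CS79.LevelClass
open Fermat.Agent.S55.CS79.FamilyCS Fermat.Agent.S55.CS79.FamilyMaps
open Fermat.Agent.S55.CS79.FormationCS
open Fermat.Agent.S55.LimDesc99 Fermat.Agent.S55.CD3
open Fermat.Agent.S55.CycloRecip37 Fermat.Agent.S55.CycloRecip37.DescendK
open Fermat.Agent.S55.IdeleCoh54.IdealSys Fermat.Agent.S55.IdeleCoh54.IdealInfl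
open Fermat.Agent.S55.IdeleCoh54.UnrInfl Fermat.Agent.S55.IdeleCoh54.UnrSum
open Fermat.Agent.S55.IdeleVal44

attribute [local instance] factPrimes44 fintypeGalL

noncomputable section

variable (S : Finset Nat.Primes)
variable (Ω Ω' : IntermediateField ℚ Qbar) [Normal ℚ Ω] [Normal ℚ Ω'] [FiniteDimensional ℚ Ω]
  [FiniteDimensional ℚ Ω'] (hΩ : Ω.IsUnramifiedOutside S) (hΩ' : Ω'.IsUnramifiedOutside S)
  (r : GalL Ω' →* GalL Ω) (hr : r.comp (resL Ω') = resL Ω)

theorem levelIncl_pullInt (ℓ : ℕ) [Fact ℓ.Prime]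
    (f : Rep.coind (locHom ℓ Ω) (trivZ ℓ)) :
    levelIncl S ℓ Ω' hΩ' (trivZ ℓ)
      (pullInt r (locHom ℓ Ω') (locHom ℓ Ω) (locHom_eq Ω Ω' r hr ℓ) f) =
    levelIncl S ℓ Ω hΩ (trivZ ℓ) f := by
  apply Subtype.ext
  apply Subtype.ext
  funext g
  show f.1 (r (resL Ω' g)) = f.1 (resL Ω g)
  rw [← hr]
  rfl

theorem iIncl_inflIS (z : IS Ω S) :
    iIncl S Ω' hΩ' (inflIS Ω Ω' S r hr z) = iIncl S Ω hΩ z := by
  refine DFinsupp.ext fun ℓ => ?_
  show (DirectSum.lmap (fun ℓ : PrimesOut S => levelIncl S (ℓ.1 : ℕ) Ω' hΩ' (trivZ (ℓ.1 : ℕ)))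
    (inflIS Ω Ω' S r hr z)) ℓ = (DirectSum.lmap (fun ℓ : PrimesOut S => levelIncl S (ℓ.1 : ℕ) Ω hΩ (trivZ (ℓ.1 : ℕ))) z) ℓ
  rw [DirectSum.lmap_apply, DirectSum.lmap_apply]
  have h1 := inflIS_apply Ω Ω' S r hr z ℓ
  show levelIncl S (ℓ.1 : ℕ) Ω' hΩ' (trivZ (ℓ.1 : ℕ))
    (dsRep.toDS _ (inflIS Ω Ω' S r hr z) ℓ) = _
  rw [h1]
  exact levelIncl_pullInt S Ω Ω' hΩ hΩ' r hr (ℓ.1 : ℕ) _


theorem inflIS_rho (g' : GalL Ω') (z : IS Ω S) :
    inflIS Ω Ω' S r hr ((IS Ω S).ρ (r g') z) = (IS Ω' S).ρ g' (inflIS Ω Ω' S r hr z) := by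
  refine dsRep.ext _ fun ℓ => ?_
  rw [inflIS_apply, dsRep.ρ_apply, dsRep.ρ_apply, inflIS_apply]
  exact pullInt_rho r (locHom ℓ.1.1 Ω') (locHom ℓ.1.1 Ω) (locHom_eq Ω Ω' r hr ℓ.1.1) g' _

variable (V : Subgroup GQ) (hV : IsOpenSub (globalLevels S) V)

/-- the family of finite levels of `Res_V I^S` -/
def famIV : Family (restrictLevels (globalLevels S) V hV) (Rep.res V.subtype (ISlim S))
    (LevV S V) :=
  (famI S).restrict V hV

theorem famIV_Q (i : LevV S V) : ((famIV S V hV).d i).Q = ↥(HV S V i) := rfl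

theorem famIV_B (i : LevV S V) :
    ((famIV S V hV).d i).B = Rep.res (HV S V i).subtype (IS i.1.1 S) := rfl

theorem famIV_e (i : LevV S V) (b : IS i.1.1 S) :
    ((famIV S V hV).d i).e b = iIncl S i.1.1 i.1.unr b := rfl


/-- Galois `S`-levels are finite over `ℚ` -/
instance finiteDimensional_galLev (i : GalLev S) : FiniteDimensional ℚ i.1 := i.unr.1

section Trans

variable {S V}
variable {i j : LevV S V} (h : j ≤ i)

/-- restriction `Gal(Ω_j/ℚ) → Gal(Ω_i/ℚ)` for `Ω_i ≤ Ω_j` -/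
def rLev : GalL j.1.1 →* GalL i.1.1 :=
  CLDescent35.Level.resLev (show i.1.1 ≤ j.1.1 from h)

theorem rLev_comp_resL : (rLev h).comp (resL j.1.1) = resL i.1.1 :=
  CLDescent35.Level.resLev_comp_resL _

theorem rLev_resL (τ : GQ) : rLev h (resL j.1.1 τ) = resL i.1.1 τ :=
  CLDescent35.Level.resLev_resL _ τ

theorem rLev_mem (g : GalL j.1.1) (hg : g ∈ HV S V j) : rLev h g ∈ HV S V i := by
  obtain ⟨v, hv, rfl⟩ := hg
  exact ⟨v, hv, (rLev_resL h v).symm⟩

theorem comap_rLev : (HV S V i).comap (rLev h) = HV S V j := by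
  ext g
  constructor
  · intro hg
    obtain ⟨σ, rfl⟩ := resL_surjective j.1.1 g
    rw [Subgroup.mem_comap, rLev_resL] at hg
    obtain ⟨v, hv, hvσ⟩ := hg
    have hker : v⁻¹ * σ ∈ (resL i.1.1).ker := by
      rw [MonoidHom.mem_ker, map_mul, map_inv, hvσ, inv_mul_cancel]
    have hσ : σ ∈ V := by
      have := V.mul_mem hv (i.2 hker)
      rwa [mul_inv_cancel_left] at this
    exact ⟨σ, hσ, rfl⟩
  · intro hg
    exact rLev_mem h g hg

/-- restriction `Gal(Ω_j/K) → Gal(Ω_i/K)` -/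
def qLev : ↥(HV S V j) →* ↥(HV S V i) :=
  ((rLev h).comp (HV S V j).subtype).codRestrict (HV S V i) (fun g => rLev_mem h g.1 g.2)

theorem coe_qLev (g : ↥(HV S V j)) : ((qLev h g : ↥(HV S V i)) : GalL i.1.1) = rLev h g.1 := rfl

/-- the transition map of the ideal modules as a morphism of `Gal(Ω_j/K)`-modules -/
def phiLev : Rep.res (qLev h) (Rep.res (HV S V i).subtype (IS i.1.1 S)) ⟶
    Rep.res (HV S V j).subtype (IS j.1.1 S) :=
  Rep.ofHom <| LinearMap.intertwiningMap_of_isIntertwiningMap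
    (ρ := (Rep.res (qLev h) (Rep.res (HV S V i).subtype (IS i.1.1 S))).ρ)
    (σ := (Rep.res (HV S V j).subtype (IS j.1.1 S)).ρ)
    (inflIS i.1.1 j.1.1 S (rLev h) (rLev_comp_resL h)).toIntLinearMap
    (fun g z => inflIS_rho S i.1.1 j.1.1 (rLev h) (rLev_comp_resL h) g.1 z)

theorem phiLev_hom_apply (z : IS i.1.1 S) :
    (phiLev h).hom z = inflIS i.1.1 j.1.1 S (rLev h) (rLev_comp_resL h) z := rfl

end Trans

section Inv

variable {T : Type*} [AddCommGroup T] (θ : ℚ →+ T) (hθ : θ 1 = 0)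

/-- the finite-level ideal invariant: helper54's `idealSys` at the level `Ω_i`, on
`H²(Gal(Ω_i/K), I^S(Ω_i))` -/
def invIU (i : LevV S V) : H2 (Rep.res (HV S V i).subtype (IS i.1.1 S)) →+ T :=
  SysMore.toH2 (idealSys i.1.1 S θ hθ) (HV S V i)

variable {V}

theorem invIU_map {i j : LevV S V} (h : j ≤ i)
    (x : H2 (Rep.res (HV S V i).subtype (IS i.1.1 S))) :
    invIU S V θ hθ j ((groupCohomology.map (qLev h) (phiLev h) 2).hom x) =
      invIU S V θ hθ i x := by
  obtain ⟨c, rfl⟩ := ProfinGlobal22.H2π_surjective _ x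
  have key := H2π_comp_map_apply (qLev h) (phiLev h) c
  refine (congrArg (invIU S V θ hθ j) key).trans ?_
  refine (SysMore.toH2_H2π (idealSys j.1.1 S θ hθ) (HV S V j) _).trans ?_
  refine Eq.trans ?_ (SysMore.toH2_H2π (idealSys i.1.1 S θ hθ) (HV S V i) c).symm
  refine Eq.trans ?_ (idealSys_infl i.1.1 j.1.1 S (rLev h) (rLev_comp_resL h) θ hθ (HV S V i)
    (GSys.isCocOn_ext0 _ c.1 c.2))
  refine Eq.trans ?_ (congrArg (fun H => (idealSys j.1.1 S θ hθ).S H _) (comap_rLev h).symm)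
  refine (idealSys j.1.1 S θ hθ).congr (HV S V j) _ _ (fun g hg a ha => ?_)
  refine (GSys.ext0_of_mem _ _ hg ha).trans ?_
  refine Eq.trans ?_ (congrArg (inflIS i.1.1 j.1.1 S (rLev h) (rLev_comp_resL h))
    (GSys.ext0_of_mem (HV S V i) c.1 (rLev_mem h g hg) (rLev_mem h a ha))).symm
  rfl

variable (V)

/-- the finite-level ideal invariants form a compatible system on helper79's family -/
def invISys : (famIV S V hV).InvSystem T :=
  Family.InvSystem.ofMap (famIV S V hV) (fun i => invIU S V θ hθ i) (fun {i j} h =>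
    ⟨qLev h, phiLev h, fun g => Subtype.ext (rLev_resL h g.1),
      fun b => iIncl_inflIS S i.1.1 j.1.1 i.1.unr j.1.unr (rLev h) (rLev_comp_resL h) b,
      invIU_map S θ hθ h⟩)

theorem invISys_inv (i : LevV S V) :
    (invISys S V hV θ hθ).inv i = SysMore.toH2 (idealSys i.1.1 S θ hθ) (HV S V i) := rfl

theorem isSmooth_IV :
    (restrictLevels (globalLevels S) V hV).IsSmooth (Rep.res V.subtype (ISlim S)) :=
  CS79.Restrict.isSmooth_res (isSmooth_ISlim S) hV

/-- **the ideal part of the total idelic invariant on the limit module**: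
`H²(V, I^S) →+ T`, the limit of helper54's finite-level systems `idealSys Ω S θ hθ`. -/
def InvI : (restrictLevels (globalLevels S) V hV).H2 (Rep.res V.subtype (ISlim S)) →+ T :=
  (invISys S V hV θ hθ).lim (isSmooth_IV S V hV)

/-- `InvI` on classes inflated from a finite level is helper54's `idealSys` at that level. -/
theorem InvI_infl₂ (i : LevV S V) (x : H2 (Rep.res (HV S V i).subtype (IS i.1.1 S))) :
    InvI S V hV θ hθ (((famIV S V hV).d i).infl₂ x) =
      SysMore.toH2 (idealSys i.1.1 S θ hθ) (HV S V i) x :=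
  (invISys S V hV θ hθ).lim_infl₂ (isSmooth_IV S V hV) i x

end Inv

end
end Fermat.Agent.S55.InvLim53.Ideal
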