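/-
S55 / 35-INVP-LIMIT (helper53), part 2: **the total idelic invariant on `H²(V, J_S × I^S)`** and
the binders `hinvJ` / `hInv` of 35-LIM / A3.

`invTot S V hV θ hθ InvS := InvS ∘ H²(pr₁) + InvI ∘ H²(pr₂)` for ANY `S`-part
`InvS : H²(V, J_S) →+ T` (e.g. helper94's `∑ w, invBr w ∘ locW w`, twisted by helper71's `epsHom` at
`w ∣ p`) and the ideal part `InvI` of `InvLim53.Ideal`.

* `invTot_infl₂` = the `hinvJ` binder of `GlobalInv91.SCFamily.exists_invCp` /
  `LimDesc99.D2.exists_invCp_V_fin` at helper79's family `famMV` (`= dat₂` of `scFamV`), with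
  `invJU i := SysMore.toH2 (sysAdd ((Js i).comap fst) ((idealSys Ω_i S θ hθ).comap snd)) (HV S V i)`,
  from the `S`-part binder `hS` alone;
* `invTot_inlV` = the `hInv` binder of `ClassGlue14.hasFormationDatum_of_invCp/_of_towerLayers`.
-/
import Fermat.Agent.S55.InvLim53.Ideal
import Fermat.Agent.S55.ClassGlue14

set_option autoImplicit false
set_option linter.unusedSectionVars false

open CategoryTheory groupCohomology

namespace Fermat.Agent.S55.InvLim53.Total

open Fermat.Agent.S55.Profin15 Fermat.Agent.S55.Idele73.Basic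
open Fermat.Agent.S55.ESDiv20 hiding GQ Qb
open Fermat.Agent.S55.ESRep20
open Fermat.Agent.S55.CS79.InvDescent Fermat.Agent.S55.CS79.Limit
open Fermat.Agent.S55.CS79.DivLimit Fermat.Agent.S55.CS79.LevelClass
open Fermat.Agent.S55.CS79.ClassSeq
open Fermat.Agent.S55.CS79.FamilyCS Fermat.Agent.S55.CS79.FamilyMaps
open Fermat.Agent.S55.CS79.FormationCS
open Fermat.Agent.S55.GlobalMod94.JS
open Fermat.Agent.S55.LimDesc99 Fermat.Agent.S55.CD3
open Fermat.Agent.S55.CycloRecip37 Fermat.Agent.S55.CycloRecip37.DescendK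
open Fermat.Agent.S55.IdeleCoh54.IdealSys
open Fermat.Agent.S55.IdeleVal44 hiding prodRep
open Fermat.Agent.S55.InvLim53.Ideal

attribute [local instance] factPrimes44 fintypeGalL

noncomputable section

/-- the invariant map of a binary sum of systems -/
theorem toH2_sysAdd {k G' : Type} [CommRing k] [Group G'] {C : Rep k G'} {T : Type*}
    [AddCommGroup T] (I J : GSys.Sys C T) (H : Subgroup G') (x : H2 (resH C H)) :
    SysMore.toH2 (sysAdd I J) H x = SysMore.toH2 I H x + SysMore.toH2 J H x := by
  obtain ⟨c, rfl⟩ := ProfinGlobal22.H2π_surjective _ x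
  rw [SysMore.toH2_H2π, SysMore.toH2_H2π, SysMore.toH2_H2π]
  rfl

variable (S : Finset Nat.Primes) (V : Subgroup GQ) (hV : IsOpenSub (globalLevels S) V)

/-- `J_S × I^S → J_S` -/
def fstLin : prodRep (JSp S) (ISlim S) →ₗ[ℤ] JSp S := LinearMap.fst ℤ (JSp S) (ISlim S)

/-- `J_S × I^S → I^S` -/
def sndLin : prodRep (JSp S) (ISlim S) →ₗ[ℤ] ISlim S := LinearMap.snd ℤ (JSp S) (ISlim S)

theorem fstLin_equivariant : LevelStr.IsEquivariant (A := prodRep (JSp S) (ISlim S))
    (B := JSp S) (fstLin S) := fun _ _ => rfl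

theorem sndLin_equivariant : LevelStr.IsEquivariant (A := prodRep (JSp S) (ISlim S))
    (B := ISlim S) (sndLin S) := fun _ _ => rfl

/-- the family of finite levels of `Res_V J_S` -/
def famJV : Family (restrictLevels (globalLevels S) V hV) (Rep.res V.subtype (JSp S))
    (LevV S V) :=
  (famJ S).restrict V hV


/-- `Res_V (J_S × I^S) → Res_V J_S` -/
abbrev fstV : MV S V →ₗ[ℤ] Rep.res V.subtype (JSp S) :=
  LevelStr.resLin (A := prodRep (JSp S) (ISlim S)) (B := JSp S) V.subtype (fstLin S)

/-- `Res_V (J_S × I^S) → Res_V I^S` -/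
abbrev sndV : MV S V →ₗ[ℤ] Rep.res V.subtype (ISlim S) :=
  LevelStr.resLin (A := prodRep (JSp S) (ISlim S)) (B := ISlim S) V.subtype (sndLin S)

theorem fstV_equivariant : LevelStr.IsEquivariant (fstV S V) :=
  (fstLin_equivariant S).res V.subtype

theorem sndV_equivariant : LevelStr.IsEquivariant (sndV S V) :=
  (sndLin_equivariant S).res V.subtype

variable {S V}

/-- naturality of inflation for the first projection -/
theorem H2map_fstV_infl₂ (i : LevV S V)
    (x : H2 (Rep.res (HV S V i).subtype (IdeleVal44.JIS i.1.1 S))) :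
    (restrictLevels (globalLevels S) V hV).H2map (fstV S V) (fstV_equivariant S V)
        (((famMV S V hV).d i).infl₂ x) =
      ((famJV S V hV).d i).infl₂ ((GlobalInv91.pushS₂
        (IdeleVal44.prodRep.fst (IdeleVal44.JS i.1.1 S) (IdeleVal44.IS i.1.1 S))
        (HV S V i)).hom x) :=
  Datum.H2map_infl₂ (fstV S V) (fstV_equivariant S V)
    ((famMV S V hV).d i) ((famJV S V hV).d i) (MonoidHom.id ↥(HV S V i)) (fun _ => rfl)
    ((Rep.resFunctor (HV S V i).subtype).map
      (IdeleVal44.prodRep.fst (IdeleVal44.JS i.1.1 S) (IdeleVal44.IS i.1.1 S)))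
    (fun _ => rfl) x

/-- naturality of inflation for the second projection -/
theorem H2map_sndV_infl₂ (i : LevV S V)
    (x : H2 (Rep.res (HV S V i).subtype (IdeleVal44.JIS i.1.1 S))) :
    (restrictLevels (globalLevels S) V hV).H2map (sndV S V) (sndV_equivariant S V)
        (((famMV S V hV).d i).infl₂ x) =
      ((famIV S V hV).d i).infl₂ ((GlobalInv91.pushS₂
        (IdeleVal44.prodRep.snd (IdeleVal44.JS i.1.1 S) (IdeleVal44.IS i.1.1 S))
        (HV S V i)).hom x) :=
  Datum.H2map_infl₂ (sndV S V) (sndV_equivariant S V)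
    ((famMV S V hV).d i) ((famIV S V hV).d i) (MonoidHom.id ↥(HV S V i)) (fun _ => rfl)
    ((Rep.resFunctor (HV S V i).subtype).map
      (IdeleVal44.prodRep.snd (IdeleVal44.JS i.1.1 S) (IdeleVal44.IS i.1.1 S)))
    (fun _ => rfl) x


variable (S V)
variable {T : Type*} [AddCommGroup T] (θ : ℚ →+ T) (hθ : θ 1 = 0)

/-- **the total idelic invariant on `H²(V, J_S × I^S)`**: an `S`-part `InvS` on `H²(V, J_S)`
(the sum of the local invariants over the places of `K = ℚbar^V` above `S`) plus the ideal part
`InvI` (the sum of the unramified invariants outside `S`). -/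
def invTot (InvS : (restrictLevels (globalLevels S) V hV).H2 (Rep.res V.subtype (JSp S)) →+ T) :
    (restrictLevels (globalLevels S) V hV).H2 (MV S V) →+ T :=
  InvS.comp ((restrictLevels (globalLevels S) V hV).H2map (fstV S V)
      (fstV_equivariant S V)).toAddMonoidHom +
    (InvI S V hV θ hθ).comp ((restrictLevels (globalLevels S) V hV).H2map (sndV S V)
      (sndV_equivariant S V)).toAddMonoidHom

theorem invTot_apply
    (InvS : (restrictLevels (globalLevels S) V hV).H2 (Rep.res V.subtype (JSp S)) →+ T)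
    (y : (restrictLevels (globalLevels S) V hV).H2 (MV S V)) :
    invTot S V hV θ hθ InvS y =
      InvS ((restrictLevels (globalLevels S) V hV).H2map (fstV S V) (fstV_equivariant S V) y) +
        InvI S V hV θ hθ
          ((restrictLevels (globalLevels S) V hV).H2map (sndV S V) (sndV_equivariant S V) y) :=
  rfl

/-- **`hinvJ`**: on classes inflated from the finite level `Ω_i`, the total invariant is the
invariant of the total finite-level system (`S`-part system `Js i` on `J_S(Ω_i)` + helper54's
`idealSys` on `I^S(Ω_i)`), provided the `S`-part `InvS` is computed by `Js` at finite levels. -/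
theorem invTot_infl₂
    (InvS : (restrictLevels (globalLevels S) V hV).H2 (Rep.res V.subtype (JSp S)) →+ T)
    (Js : ∀ i : LevV S V, GSys.Sys (IdeleVal44.JS i.1.1 S) T)
    (hS : ∀ (i : LevV S V) (y : H2 (Rep.res (HV S V i).subtype (IdeleVal44.JS i.1.1 S))),
      InvS (((famJV S V hV).d i).infl₂ y) = SysMore.toH2 (Js i) (HV S V i) y)
    (i : LevV S V) (x : H2 (Rep.res (HV S V i).subtype (IdeleVal44.JIS i.1.1 S))) :
    invTot S V hV θ hθ InvS (((famMV S V hV).d i).infl₂ x) =
      SysMore.toH2 (sysAdd
        ((Js i).comap (IdeleVal44.prodRep.fst (IdeleVal44.JS i.1.1 S) (IdeleVal44.IS i.1.1 S)))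
        ((idealSys i.1.1 S θ hθ).comap
          (IdeleVal44.prodRep.snd (IdeleVal44.JS i.1.1 S) (IdeleVal44.IS i.1.1 S))))
        (HV S V i) x := by
  rw [invTot_apply, H2map_fstV_infl₂, H2map_sndV_infl₂, hS, InvI_infl₂,
    SysH2.toH2_pushS₂, SysH2.toH2_pushS₂]
  exact (toH2_sysAdd _ _ _ x).symm


open Fermat.Agent.S55.ClassGlue14 in
/-- **`hInv`**: on the classes coming from `H²(V, J_S)` the total invariant is its `S`-part. -/
theorem invTot_inlV
    (InvS : (restrictLevels (globalLevels S) V hV).H2 (Rep.res V.subtype (JSp S)) →+ T)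
    (x : (restrictLevels (globalLevels S) V hV).H2 (Rep.res V.subtype (JSp S))) :
    invTot S V hV θ hθ InvS ((restrictLevels (globalLevels S) V hV).H2map
      (LevelStr.resLin (A := JSp S) (B := prodRep (JSp S) (ISlim S)) V.subtype (inlLin S))
      ((inlLin_equivariant S).res V.subtype) x) = InvS x := by
  rw [invTot_apply]
  have h1 : (restrictLevels (globalLevels S) V hV).H2map (fstV S V) (fstV_equivariant S V)
      ((restrictLevels (globalLevels S) V hV).H2map
        (LevelStr.resLin (A := JSp S) (B := prodRep (JSp S) (ISlim S)) V.subtype (inlLin S))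
        ((inlLin_equivariant S).res V.subtype) x) = x := by
    obtain ⟨c, rfl⟩ := Submodule.Quotient.mk_surjective _ x
    rfl
  have h2 : (restrictLevels (globalLevels S) V hV).H2map (sndV S V) (sndV_equivariant S V)
      ((restrictLevels (globalLevels S) V hV).H2map
        (LevelStr.resLin (A := JSp S) (B := prodRep (JSp S) (ISlim S)) V.subtype (inlLin S))
        ((inlLin_equivariant S).res V.subtype) x) = 0 := by
    obtain ⟨c, rfl⟩ := Submodule.Quotient.mk_surjective _ x
    have : ∀ z : ↥((restrictLevels (globalLevels S) V hV).Z₂ (Rep.res V.subtype (ISlim S))),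
        (z : ↥V × ↥V → ISlim S) = 0 →
        (restrictLevels (globalLevels S) V hV).H2π (Rep.res V.subtype (ISlim S)) z = 0 := by
      intro z hz
      have : z = 0 := Subtype.ext hz
      rw [this, map_zero]
    exact this _ rfl
  rw [h1, h2, map_zero, add_zero]

end

end Fermat.Agent.S55.InvLim53.Total
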