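/-
S55 / 35-INVP-LIMIT (helper53), part 3: the limit-level total invariant against helper37's
UNCONDITIONAL finite-level total system `totalSysU hp2 Ω S` (DISPATCH-23 (2): the `rfl` test).

With `θ := qzProj`, `Js i := jsSys Ω_i S (fun q => locSysU q Ω_i) (twistU hp2)` the right-hand
side of `InvLim53.Total.invTot_infl₂` IS `SysMore.toH2 (totalSysU hp2 Ω_i S) (HV S V i)` by `rfl`,
and `= toH2top (restrict (HV S V i) (totalSysU hp2 Ω_i S))` (the `invJ` of helper37's
`recT_D2` / `finLayerHyp_D2`) by helper54's `toH2top_restrict`.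
-/
import Fermat.Agent.S55.InvLim53.Total
import Fermat.Agent.S55.CycloRecip37.RecT
import Fermat.Agent.S55.IdeleCoh54.ToH2Bridge

set_option autoImplicit false
set_option linter.unusedSectionVars false

open CategoryTheory groupCohomology

namespace Fermat.Agent.S55.InvLim53.TotalU

open Fermat.Agent.S55.Profin15 Fermat.Agent.S55.Idele73.Basic
open Fermat.Agent.S55.ESDiv20 hiding GQ Qb
open Fermat.Agent.S55.ESRep20
open Fermat.Agent.S55.CS79.LevelClass
open Fermat.Agent.S55.CS79.FamilyCS Fermat.Agent.S55.CS79.FamilyMaps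
open Fermat.Agent.S55.CS79.FormationCS
open Fermat.Agent.S55.GlobalMod94.JS
open Fermat.Agent.S55.LimDesc99 Fermat.Agent.S55.CD3
open Fermat.Agent.S55.CycloRecip37 Fermat.Agent.S55.CycloRecip37.DescendK
open Fermat.Agent.S55.CycloRecip37.TotalSys Fermat.Agent.S55.CycloRecip37.RecT
open Fermat.Agent.S55.CycloRecip37.Uncond
open Fermat.Agent.S55.IdeleCoh54.IdealSys
open Fermat.Agent.S55.FrobSys98.Tame (qzProj qzProj_one)
open Fermat.Agent.S55.QZ33 Fermat.Agent.S55.Idele73.Local
open Fermat.Agent.S55.InvLim53.Ideal Fermat.Agent.S55.InvLim53.Total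

attribute [local instance] IdeleVal44.factPrimes44 IdeleCoh54.IdealSys.fintypeGalL

variable {p : ℕ} [hp : Fact p.Prime] (hp2 : p ≠ 2)
  (S : Finset Nat.Primes) (V : Subgroup GQ) (hV : IsOpenSub (globalLevels S) V)

/-- the `rfl` test of DISPATCH-23 (2): helper37's `totalSys` is the `sysAdd` of
`invTot_infl₂`. -/
theorem totalSys_eq_sysAdd (L : IntermediateField ℚ Qbar) [Normal ℚ L] [FiniteDimensional ℚ L]
    {T : Type*} [AddCommGroup T] (I : ∀ q : Nat.Primes, GSys.Sys (EUnits (q : ℕ) L) T)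
    (e : Nat.Primes → (T →+ T)) (θ : ℚ →+ T) (hθ : θ 1 = 0) :
    totalSys L S I e θ hθ =
      sysAdd ((jsSys L S I e).comap (IdeleVal44.prodRep.fst (IdeleVal44.JS L S) (IdeleVal44.IS L S)))
        ((idealSys L S θ hθ).comap
          (IdeleVal44.prodRep.snd (IdeleVal44.JS L S) (IdeleVal44.IS L S))) := rfl

/-- **the `S`-part of the total system, unfolded on a cocycle**: the sum over `q ∈ S` of the
(twisted) coinduced local systems on the `q`-components, read through `JqIsoE`.  This is the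
shape of the right-hand side of helper94's `HSAssembly` (H3). -/
theorem toH2_jsSys_H2π (L : IntermediateField ℚ Qbar) [Normal ℚ L] [FiniteDimensional ℚ L]
    {T : Type*} [AddCommGroup T] (I : ∀ q : Nat.Primes, GSys.Sys (EUnits (q : ℕ) L) T)
    (e : Nat.Primes → (T →+ T)) (H : Subgroup (GalL L))
    (c : cocycles₂ (Rep.res H.subtype (IdeleVal44.JS L S))) :
    SysMore.toH2 (jsSys L S I e) H ((H2π (Rep.res H.subtype (IdeleVal44.JS L S))).hom c) =
      ∑ q : IdeleVal44.InS S, e q.1 ((CoindSys.coindSys (j := jE (q.1 : ℕ) L) (I q.1)).S H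
        (fun x => (JqIsoE (q.1 : ℕ) L).inv.hom
          (compC (fun q : IdeleVal44.InS S => Jq (q.1 : ℕ) L) q (GSys.ext0 H c.1) x))) := by
  rw [SysMore.toH2_H2π, jsSys, dsSys_S, finsum_eq_sum_of_fintype]
  rfl

/-- the `S`-part of helper37's unconditional total system at the level `Ω_i` -/
noncomputable abbrev jsSysU (i : LevV S V) : GSys.Sys (IdeleVal44.JS i.1.1 S) QZ :=
  jsSys i.1.1 S (fun q => locSysU q i.1.1) (twistU hp2)

/-- **`hinvJ` against `totalSysU`**, `SysMore.toH2` normal form. -/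
theorem invTot_infl₂_totalSysU
    (InvS : (restrictLevels (globalLevels S) V hV).H2 (Rep.res V.subtype (JSp S)) →+ QZ)
    (hS : ∀ (i : LevV S V) (y : H2 (Rep.res (HV S V i).subtype (IdeleVal44.JS i.1.1 S))),
      InvS (((famJV S V hV).d i).infl₂ y) = SysMore.toH2 (jsSysU hp2 S V i) (HV S V i) y)
    (i : LevV S V) (x : H2 (Rep.res (HV S V i).subtype (IdeleVal44.JIS i.1.1 S))) :
    invTot S V hV qzProj qzProj_one InvS (((famMV S V hV).d i).infl₂ x) =
      SysMore.toH2 (totalSysU hp2 i.1.1 S) (HV S V i) x :=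
  invTot_infl₂ S V hV qzProj qzProj_one InvS (fun i => jsSysU hp2 S V i) hS i x

/-- **`hinvJ` against `totalSysU`**, `toH2top ∘ restrict` normal form (the `invJ` of helper37's
`recT_D2` / `finLayerHyp_D2` and helper54's `fullDeg`). -/
theorem invTot_infl₂_totalSysU_top
    (InvS : (restrictLevels (globalLevels S) V hV).H2 (Rep.res V.subtype (JSp S)) →+ QZ)
    (hS : ∀ (i : LevV S V) (y : H2 (Rep.res (HV S V i).subtype (IdeleVal44.JS i.1.1 S))),
      InvS (((famJV S V hV).d i).infl₂ y) = SysMore.toH2 (jsSysU hp2 S V i) (HV S V i) y)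
    (i : LevV S V) (x : H2 (Rep.res (HV S V i).subtype (IdeleVal44.JIS i.1.1 S))) :
    invTot S V hV qzProj qzProj_one InvS (((famMV S V hV).d i).infl₂ x) =
      SysH2.toH2top (SysH2.restrict (HV S V i) (totalSysU hp2 i.1.1 S)) x := by
  rw [IdeleCoh54.ToH2Bridge.toH2top_restrict]
  exact invTot_infl₂_totalSysU hp2 S V hV InvS hS i x

end Fermat.Agent.S55.InvLim53.TotalU
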