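/-
S55 / HS bridge end (helper53, DISPATCH-26): from the cocycle-level formulas for the `S`-part of
the limit total invariant to the LITERAL named Prop `LimDesc99.A3.HS hp2 S V hV` (the only input
of `Adapt77.HAlphaUncond.allCore_of_HS` / helper99 `allCore_uncond`).

* `HS_of_sum`   : hypothesis = one formula per level and cocycle, RHS `∑ q : InS S, twistU q (…)`
  in the shape of `InvLim53.TotalU.toH2_jsSys_H2π` (`coindSys.S`, `locSysU`);
* `HS_of_sum71` : the same with `CoindSys.coindS` and helper71's `locSys71` (rfl-equal);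
* `HS_of_perq`  : hypothesis = the PER-PRIME formula
  `∑ x : ↥(RS S V hV q), invBrU ⟨q, x⟩ (locW ⟨q, x⟩ (infl₂ (H2π c))) = coindS (locSys71 q Ω_i) H f_q`
  (= helper64 `CoindCompat.sum_locw_eq_coindS` instantiated at `q`); the regrouping
  `∑ w : PlaceV = ∑ q ∑ x` and the twist `twistU hp2 q` pulled out of the inner sum are done here.
-/
import Fermat.Agent.S55.LimDesc99.AllCoreFinal
import Fermat.Agent.S55.InvLim53.TotalU
import Fermat.Agent.S55.P2Local71.PresFinal

set_option autoImplicit false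
set_option linter.unusedSectionVars false

open CategoryTheory groupCohomology

namespace Fermat.Agent.S55.InvLim53.HSBridge

open Fermat.Agent.S55.Profin15 Fermat.Agent.S55.Idele73.Basic
open Fermat.Agent.S55.ESDiv20 hiding GQ Qb
open Fermat.Agent.S55.ESRep20
open Fermat.Agent.S55.CS79.LevelClass
open Fermat.Agent.S55.CS79.FamilyCS Fermat.Agent.S55.CS79.FamilyMaps
open Fermat.Agent.S55.CS79.FormationCS
open Fermat.Agent.S55.GlobalMod94.JS
open Fermat.Agent.S55.GlobalMod94.OpenJS Fermat.Agent.S55.GlobalMod94.JSideUncond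
open Fermat.Agent.S55.GlobalMod94.JSideTotal
open Fermat.Agent.S55.LimDesc99 Fermat.Agent.S55.CD3
open Fermat.Agent.S55.CycloRecip37 Fermat.Agent.S55.CycloRecip37.DescendK
open Fermat.Agent.S55.CycloRecip37.TotalSys Fermat.Agent.S55.CycloRecip37.RecT
open Fermat.Agent.S55.CycloRecip37.Uncond
open Fermat.Agent.S55.QZ33 Fermat.Agent.S55.Idele73.Local
open Fermat.Agent.S55.InvLim53.Ideal Fermat.Agent.S55.InvLim53.Total
open Fermat.Agent.S55.InvLim53.TotalU
open Fermat.Agent.S55.IdeleCoh54.IdealSys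

attribute [local instance] IdeleVal44.factPrimes44 IdeleCoh54.IdealSys.fintypeGalL

variable {p : ℕ} [hp : Fact p.Prime] (hp2 : p ≠ 2)
  (S : Finset Nat.Primes) (V : Subgroup GQ) (hV : IsOpenSub (globalLevels S) V)

/-- helper37's unconditional local system is helper71's (proof irrelevance). -/
theorem locSysU_eq_locSys71 (q : Nat.Primes) (L : IntermediateField ℚ Qbar) [Normal ℚ L]
    [FiniteDimensional ℚ L] : locSysU q L = P2Local71.locSys71 q L := rfl

theorem famJV_eq : famJV S V hV = (famJ S).restrict V hV := rfl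

/-- the `q`-component cochain of the `S`-idele cochain `c` extended by zero, read in the coinduced
module through `JqIsoE`: the cochain on which the `q`-summand of `jsSys` is evaluated. -/
noncomputable abbrev fqE (L : IntermediateField ℚ Qbar) [Normal ℚ L] [FiniteDimensional ℚ L]
    (H : Subgroup (GalL L)) (q : IdeleVal44.InS S)
    (c : ↥H × ↥H → IdeleVal44.JS L S) :
    GalL L × GalL L → Rep.coind (jE (q.1 : ℕ) L) (EUnits (q.1 : ℕ) L) :=
  fun x => (JqIsoE (q.1 : ℕ) L).inv.hom
    (compC (fun q : IdeleVal44.InS S => Jq (q.1 : ℕ) L) q (GSys.ext0 H c) x)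

/-- **from the cocycle-level sum formula to the literal named Prop `HS`.** -/
theorem HS_of_sum
    (hsum : ∀ (i : LevV S V) (c : cocycles₂ (Rep.res (HV S V i).subtype (IdeleVal44.JS i.1.1 S))),
      LimDesc99.A3.InvSU hp2 S V hV (((famJV S V hV).d i).infl₂
          ((H2π (Rep.res (HV S V i).subtype (IdeleVal44.JS i.1.1 S))).hom c)) =
        ∑ q : IdeleVal44.InS S, twistU hp2 q.1
          ((CoindSys.coindSys (j := jE (q.1 : ℕ) i.1.1) (locSysU q.1 i.1.1)).S (HV S V i)
            (fqE S i.1.1 (HV S V i) q c.1))) :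
    LimDesc99.A3.HS hp2 S V hV := by
  intro i y
  obtain ⟨c, rfl⟩ := ProfinGlobal22.H2π_surjective _ y
  exact (hsum i c).trans
    (toH2_jsSys_H2π S i.1.1 (fun q => locSysU q i.1.1) (twistU hp2) (HV S V i) c).symm

/-- the same with `CoindSys.coindS` and helper71's `locSys71`. -/
theorem HS_of_sum71
    (hsum : ∀ (i : LevV S V) (c : cocycles₂ (Rep.res (HV S V i).subtype (IdeleVal44.JS i.1.1 S))),
      LimDesc99.A3.InvSU hp2 S V hV (((famJV S V hV).d i).infl₂
          ((H2π (Rep.res (HV S V i).subtype (IdeleVal44.JS i.1.1 S))).hom c)) =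
        ∑ q : IdeleVal44.InS S, twistU hp2 q.1
          (CoindSys.coindS (j := jE (q.1 : ℕ) i.1.1) (P2Local71.locSys71 q.1 i.1.1) (HV S V i)
            (fqE S i.1.1 (HV S V i) q c.1))) :
    LimDesc99.A3.HS hp2 S V hV :=
  HS_of_sum hp2 S V hV hsum

/-- regrouping of the sum over the places above `V`: `∑ w = ∑ q ∑ x`, twist pulled out. -/
theorem InvSU_eq_sum_sum
    (x : (restrictLevels (globalLevels S) V hV).H2 (Rep.res V.subtype (JSp S))) :
    LimDesc99.A3.InvSU hp2 S V hV x =
      ∑ q : ↥S, twistU hp2 (q : Nat.Primes)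
        (∑ r : ↥(RS S V hV q), invBrU S V hV ⟨q, r⟩ (locW S V hV ⟨q, r⟩ x)) := by
  classical
  rw [LimDesc99.A3.InvSU_apply]
  have h := Fintype.sum_sigma (ι := ↥S) (α := fun q => ↥(RS S V hV q))
    (fun w : (Σ q : ↥S, ↥(RS S V hV q)) =>
      LimDesc99.A3.aU hp2 S V hV w (invBrU S V hV w (locW S V hV w x)))
  refine (Eq.trans ?_ h).trans ?_
  · exact Finset.sum_congr (by ext; simp) (fun _ _ => rfl)
  · refine Finset.sum_congr rfl (fun q _ => ?_)
    rw [map_sum]
    rfl

/-- **from the per-prime Mackey formula to `HS`.** -/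
theorem HS_of_perq
    (hq : ∀ (i : LevV S V) (c : cocycles₂ (Rep.res (HV S V i).subtype (IdeleVal44.JS i.1.1 S)))
      (q : ↥S),
      ∑ r : ↥(RS S V hV q), invBrU S V hV ⟨q, r⟩ (locW S V hV ⟨q, r⟩
        (((famJV S V hV).d i).infl₂
          ((H2π (Rep.res (HV S V i).subtype (IdeleVal44.JS i.1.1 S))).hom c))) =
        CoindSys.coindS (j := jE ((q : Nat.Primes) : ℕ) i.1.1)
          (P2Local71.locSys71 (q : Nat.Primes) i.1.1) (HV S V i)
          (fqE S i.1.1 (HV S V i) q c.1)) :
    LimDesc99.A3.HS hp2 S V hV := by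
  refine HS_of_sum71 hp2 S V hV (fun i c => ?_)
  rw [InvSU_eq_sum_sum]
  exact Finset.sum_congr rfl (fun q _ => congrArg _ (hq i c q))

end Fermat.Agent.S55.InvLim53.HSBridge
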