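/-
S55 / 35-INVP-LIMIT (helper53), part 4: **`htr` (level change of the finite-level total invariant)
from the limit-level pair `(invTot, invTot_infl₂)`**, in the LITERAL shape of the binder `htr` of
`LimDesc99.A3.hasFormationDatum_of_D2` / `core_of_D2` and of the `htrAll` binder of the `s`-free
reciprocity (helper77 #2673): for EVERY open `V`,

`toH2 (totalSysU hp2 Ω_j S) (HV S V j) (tr₂ x) = toH2 (totalSysU hp2 Ω_i S) (HV S V i) x`.

The only hypothesis is the `S`-part binder `hS` of `invTot_infl₂` at `V` (helper94 HSAssembly (H3)).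
-/
import Fermat.Agent.S55.InvLim53.TotalU
import Fermat.Agent.S55.LimDesc99.SCAdapter

set_option autoImplicit false
set_option linter.unusedSectionVars false

open CategoryTheory groupCohomology

namespace Fermat.Agent.S55.InvLim53.Htr

open Fermat.Agent.S55.Profin15 Fermat.Agent.S55.Idele73.Basic
open Fermat.Agent.S55.ESDiv20 hiding GQ Qb
open Fermat.Agent.S55.ESRep20
open Fermat.Agent.S55.CS79.LevelClass
open Fermat.Agent.S55.CS79.FamilyCS Fermat.Agent.S55.CS79.FamilyMaps
open Fermat.Agent.S55.CS79.FormationCS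
open Fermat.Agent.S55.GlobalMod94.JS
open Fermat.Agent.S55.GlobalInv91
open Fermat.Agent.S55.LimDesc99 Fermat.Agent.S55.CD3
open Fermat.Agent.S55.LimDesc99.D2 (scFamV)
open Fermat.Agent.S55.CycloRecip37 Fermat.Agent.S55.CycloRecip37.DescendK
open Fermat.Agent.S55.CycloRecip37.TotalSys Fermat.Agent.S55.CycloRecip37.RecT
open Fermat.Agent.S55.CycloRecip37.Uncond
open Fermat.Agent.S55.IdeleCoh54.IdealSys
open Fermat.Agent.S55.FrobSys98.Tame (qzProj qzProj_one)
open Fermat.Agent.S55.QZ33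
open Fermat.Agent.S55.InvLim53.Ideal Fermat.Agent.S55.InvLim53.Total
open Fermat.Agent.S55.InvLim53.TotalU

attribute [local instance] IdeleVal44.factPrimes44 IdeleCoh54.IdealSys.fintypeGalL

variable {p : ℕ} [hp : Fact p.Prime] (hp2 : p ≠ 2)
  (S : Finset Nat.Primes) (V : Subgroup GQ) (hV : IsOpenSub (globalLevels S) V)

/-- `htr` for helper79's family `famMV` (transition maps `Datum.trans₂`). -/
theorem htr_famMV
    (InvS : (restrictLevels (globalLevels S) V hV).H2 (Rep.res V.subtype (JSp S)) →+ QZ)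
    (hS : ∀ (i : LevV S V) (y : H2 (Rep.res (HV S V i).subtype (IdeleVal44.JS i.1.1 S))),
      InvS (((Total.famJV S V hV).d i).infl₂ y) = SysMore.toH2 (jsSysU hp2 S V i) (HV S V i) y)
    {i j : LevV S V} (h : j ≤ i)
    (x : H2 (Rep.res (HV S V i).subtype (IdeleVal44.JIS i.1.1 S))) :
    SysMore.toH2 (totalSysU hp2 j.1.1 S) (HV S V j)
        (Datum.trans₂ ((famMV S V hV).mono h) x) =
      SysMore.toH2 (totalSysU hp2 i.1.1 S) (HV S V i) x := by
  have h1 := invTot_infl₂_totalSysU hp2 S V hV InvS hS j (Datum.trans₂ ((famMV S V hV).mono h) x)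
  have h2 := invTot_infl₂_totalSysU hp2 S V hV InvS hS i x
  rw [Datum.infl₂_trans₂] at h1
  exact h1.symm.trans h2

/-- **`htr` of `LimDesc99.A3.hasFormationDatum_of_D2` / `core_of_D2`, LITERALLY**, with
`invJU i := SysMore.toH2 (totalSysU hp2 Ω_i S) (HV S V i)`. -/
theorem htr_scFamV (hSne : S.Nonempty)
    (InvS : (restrictLevels (globalLevels S) V hV).H2 (Rep.res V.subtype (JSp S)) →+ QZ)
    (hS : ∀ (i : LevV S V) (y : H2 (Rep.res (HV S V i).subtype (IdeleVal44.JS i.1.1 S))),
      InvS (((Total.famJV S V hV).d i).infl₂ y) = SysMore.toH2 (jsSysU hp2 S V i) (HV S V i) y)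
    (i j : LevV S V) (h : j ≤ i) (x : H2 ((scFamV S V hV hSne).d i).Y.X₂) :
    SysMore.toH2 (totalSysU hp2 j.1.1 S) (HV S V j)
        ((SCDatum.tr₂ ((scFamV S V hV hSne).mono h)).hom x) =
      SysMore.toH2 (totalSysU hp2 i.1.1 S) (HV S V i) x := by
  have e := SCDatum.trans₂_eq_tr₂ ((scFamV S V hV hSne).mono h) x
  exact (congrArg (SysMore.toH2 (totalSysU hp2 j.1.1 S) (HV S V j)) e.symm).trans
    (htr_famMV hp2 S V hV InvS hS h x)

/-- the same in the `toH2top ∘ restrict` normal form. -/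
theorem htr_scFamV_top (hSne : S.Nonempty)
    (InvS : (restrictLevels (globalLevels S) V hV).H2 (Rep.res V.subtype (JSp S)) →+ QZ)
    (hS : ∀ (i : LevV S V) (y : H2 (Rep.res (HV S V i).subtype (IdeleVal44.JS i.1.1 S))),
      InvS (((Total.famJV S V hV).d i).infl₂ y) = SysMore.toH2 (jsSysU hp2 S V i) (HV S V i) y)
    (i j : LevV S V) (h : j ≤ i) (x : H2 ((scFamV S V hV hSne).d i).Y.X₂) :
    SysH2.toH2top (SysH2.restrict (HV S V j) (totalSysU hp2 j.1.1 S))
        ((SCDatum.tr₂ ((scFamV S V hV hSne).mono h)).hom x) =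
      SysH2.toH2top (SysH2.restrict (HV S V i) (totalSysU hp2 i.1.1 S)) x := by
  have e1 := IdeleCoh54.ToH2Bridge.toH2top_restrict (totalSysU hp2 j.1.1 S) (HV S V j)
  have e2 := IdeleCoh54.ToH2Bridge.toH2top_restrict (totalSysU hp2 i.1.1 S) (HV S V i)
  exact (DFunLike.congr_fun e1 _).trans
    ((htr_scFamV hp2 S V hV hSne InvS hS i j h x).trans (DFunLike.congr_fun e2 x).symm)

end Fermat.Agent.S55.InvLim53.Htr
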